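/-
S37 / H75 (helper75): the RELATIVE package for a finite extension `F'/F` of function fields over
an algebraically closed constant field `K` of characteristic zero, at an ARBITRARY base place
`v` of `F`.

For a place `v` of `F` let `A = O_v` and `B = relB v F'` the integral closure of `A` in `F'`
(a semilocal Dedekind domain).  Then

* `restrict_placeOfPrime`, `exists_placeOfPrime_of_restrict` : the places of `F'` above `v` are
  exactly the places attached to the height-one primes of `B`;
* `pushforwardNormFormula` : `Divisor.PushforwardNormFormula K F F'`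
  (`π_* div f = div (N_{F'/F} f)`);
* `sumRamificationInertia` : `SumRamificationInertia K F F'` (hence `FundamentalIdentity`),
  a formal consequence of the norm formula.

Built on the landed `S18/H42/PlaceDict` (places <-> primes of a Dedekind domain) and
`S18/H53/NormVal` (`ordV_norm`).
-/
import Mathlib
import Fermat.Prelude.Def_AlgebraicCurve_Correspondence
import Fermat.Agent.S24.H52.AddVal
import Fermat.Agent.S24.Ord
import Fermat.Agent.S18.H42.PlaceDict
import Fermat.Agent.S18.H53.NormVal

set_option autoImplicit false
set_option linter.unusedSectionVars false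
set_option linter.style.haveILetI false

open AlgebraicCurve IsDedekindDomain

noncomputable section

namespace Fermat.Agent.S37.H75

open Fermat.Agent.S24.H52 Fermat.Agent.S18.H42 Fermat.Agent.S18.H53

section Relative

variable {K : Type*} [Field K] {F : Type*} [Field F] [Algebra K F]

variable (K F) in
theorem charZero_of_algebra [CharZero K] : CharZero F :=
  charZero_of_injective_algebraMap (algebraMap K F).injective

/-- The integral closure in `F'` of the valuation ring of the place `v` of `F`. -/
abbrev relB (v : Place K F) (F' : Type*) [Field F'] [Algebra F F'] :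
    Subalgebra ↥v.toValuationSubring F' :=
  integralClosure ↥v.toValuationSubring F'

variable {F' : Type*} [Field F'] [Algebra K F'] [Algebra F F'] [IsScalarTower K F F']

/-- The `K`-algebra structure on the integral closure `relB v F'`. -/
abbrev relBAlgebra (v : Place K F) : Algebra K (relB v F') :=
  ((algebraMap ↥v.toValuationSubring (relB v F')).comp
    (algebraMap K ↥v.toValuationSubring)).toAlgebra

attribute [local instance] relBAlgebra

theorem relB_isScalarTower (v : Place K F) : IsScalarTower K (relB v F') F' := by
  refine IsScalarTower.of_algebraMap_eq fun a => ?_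
  rw [IsScalarTower.algebraMap_apply K F F']
  rfl

attribute [local instance] relB_isScalarTower

variable (v : Place K F)

/-- The integral closure of `O_v` lies in the valuation ring of every place above `v`. -/
theorem relB_mem_of_restrict [Algebra.IsIntegral F F'] (w : Place K F') (hw : w.restrict F = v)
    (b : relB v F') : algebraMap (relB v F') F' b ∈ w.toValuationSubring := by
  have hint : IsIntegral ↥v.toValuationSubring (b : F') := b.2
  have hA : ∀ a : ↥v.toValuationSubring, algebraMap F F' (a : F) ∈ w.toValuationSubring := by
    intro a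
    have ha : (a : F) ∈ (w.restrict F).toValuationSubring := by rw [hw]; exact a.2
    exact ha
  have hint' : IsIntegral w.toValuationSubring (b : F') := by
    obtain ⟨q, hq, hqs⟩ := hint
    let φ : ↥v.toValuationSubring →+* w.toValuationSubring :=
      { toFun := fun r => ⟨algebraMap F F' (r : F), hA r⟩
        map_one' := Subtype.ext (map_one _)
        map_mul' := fun _ _ => Subtype.ext (map_mul _ _ _)
        map_zero' := Subtype.ext (map_zero _)
        map_add' := fun _ _ => Subtype.ext (map_add _ _ _) }
    refine ⟨q.map φ, hq.map φ, ?_⟩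
    rw [Polynomial.eval₂_map]
    exact hqs
  obtain ⟨a, ha⟩ :=
    (IsIntegrallyClosed.isIntegral_iff (R := w.toValuationSubring) (K := F')).mp hint'
  show (b : F') ∈ w.toValuationSubring
  rw [← ha]
  exact a.2

variable [CharZero K] [FiniteDimensional F F']

theorem relB_isDedekindDomain : IsDedekindDomain (relB v F') := by
  haveI : CharZero F := charZero_of_algebra K F
  exact integralClosure.isDedekindDomain ↥v.toValuationSubring F F'

theorem relB_isFractionRing : IsFractionRing (relB v F') F' :=
  integralClosure.isFractionRing_of_finite_extension F F'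

theorem relB_finite : Module.Finite ↥v.toValuationSubring (relB v F') := by
  haveI : CharZero F := charZero_of_algebra K F
  exact IsIntegralClosure.finite ↥v.toValuationSubring F F' (relB v F')

omit [Algebra K F'] [IsScalarTower K F F'] [CharZero K] [FiniteDimensional F F'] in
theorem isTorsionFree_valuationSubring : Module.IsTorsionFree ↥v.toValuationSubring F' := by
  refine Module.IsTorsionFree.of_smul_eq_zero fun r m h => ?_
  have h' : algebraMap F F' (r : F) * m = 0 := by
    rw [← Algebra.smul_def]
    exact h
  rcases mul_eq_zero.mp h' with h1 | h1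
  · left
    exact Subtype.ext ((map_eq_zero _).mp h1)
  · right
    exact h1

omit [Algebra K F'] [IsScalarTower K F F'] [CharZero K] [FiniteDimensional F F'] in
theorem relB_isTorsionFree : Module.IsTorsionFree ↥v.toValuationSubring (relB v F') := by
  haveI := isTorsionFree_valuationSubring (F' := F') v
  exact Subalgebra.instIsTorsionFree _

attribute [local instance] relB_isDedekindDomain relB_isFractionRing relB_finite
  relB_isTorsionFree

/-- The place attached to a height-one prime of `relB v F'` lies above `v`. -/
theorem restrict_placeOfPrime (P : HeightOneSpectrum (relB v F')) :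
    (placeOfPrime (K := K) (F := F') P).restrict F = v := by
  set w : Place K F' := placeOfPrime (K := K) (F := F') P with hw
  have hle : ∀ f : F, f ≠ 0 → f ∈ v.toValuationSubring → 0 ≤ (w.restrict F).ord f := by
    intro f _ hf
    apply ord_nonneg_of_mem
    have h1 : algebraMap (relB v F') F' (algebraMap ↥v.toValuationSubring (relB v F') ⟨f, hf⟩)
        ∈ w.toValuationSubring := algebraMap_mem_placeOfPrime P _
    exact h1
  have hnt : ∃ g : F, g ≠ 0 ∧ (w.restrict F).ord g ≠ 0 := by
    obtain ⟨π, hπ⟩ :=
      IsDiscreteValuationRing.exists_irreducible (w.restrict F).toValuationSubring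
    refine ⟨(π : F), ?_, ?_⟩
    · simpa [ne_eq, ZeroMemClass.coe_eq_zero] using hπ.ne_zero
    · rw [(w.restrict F).ord_coe_irreducible hπ]
      exact one_ne_zero
  have key := mem_iff_of_le v (isAddVal_ord (w.restrict F)) hle hnt
  apply Place.ext
  apply SetLike.ext
  intro f
  by_cases hf : f = 0
  · rw [hf]
    exact ⟨fun _ => ValuationSubring.zero_mem _, fun _ => ValuationSubring.zero_mem _⟩
  · rw [key f hf, mem_iff_ord_nonneg (w.restrict F) hf]

/-- Every place above `v` is attached to a height-one prime of `relB v F'`. -/
theorem exists_placeOfPrime_of_restrict (w : Place K F') (hw : w.restrict F = v) :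
    ∃ P : HeightOneSpectrum (relB v F'), placeOfPrime (K := K) (F := F') P = w :=
  exists_placeOfPrime_eq w (relB_mem_of_restrict v w hw)

/-- Every height-one prime of `relB v F'` lies over the maximal ideal of `O_v`. -/
theorem under_eq_maximalIdeal (P : HeightOneSpectrum (relB v F')) :
    P.asIdeal.under ↥v.toValuationSubring = IsLocalRing.maximalIdeal ↥v.toValuationSubring := by
  have hne : P.asIdeal.under ↥v.toValuationSubring ≠ ⊥ := by
    intro h
    exact P.ne_bot (Ideal.eq_bot_of_comap_eq_bot h)
  have hprime : (P.asIdeal.under ↥v.toValuationSubring).IsPrime := Ideal.IsPrime.under _ _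
  exact IsLocalRing.eq_maximalIdeal (hprime.isMaximal hne)

theorem mem_primesAbove (P : HeightOneSpectrum (relB v F')) :
    P ∈ primesAbove (relB v F') v.heightOneSpectrum :=
  under_eq_maximalIdeal v P

/-- Over an algebraically closed constant field, if `deg v = 1` then every prime of `relB v F'`
has (Mathlib) inertia degree one over `O_v`. -/
theorem inertiaDeg_relB [IsAlgClosed K] (hv : v.deg = 1) (P : HeightOneSpectrum (relB v F')) :
    P.asIdeal.inertiaDeg ↥v.toValuationSubring = 1 := by
  set p : Ideal ↥v.toValuationSubring := IsLocalRing.maximalIdeal ↥v.toValuationSubring with hp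
  haveI hlo : P.asIdeal.LiesOver p := ⟨(under_eq_maximalIdeal v P).symm⟩
  haveI hPm : P.asIdeal.IsMaximal := P.isMaximal
  haveI hpm : p.IsMaximal := IsLocalRing.maximalIdeal.isMaximal _
  letI : Field (↥v.toValuationSubring ⧸ p) := Ideal.Quotient.field p
  letI : Field (relB v F' ⧸ P.asIdeal) := Ideal.Quotient.field P.asIdeal
  have hsurj : Function.Surjective (algebraMap K (↥v.toValuationSubring ⧸ p)) := by
    have h1 : Module.finrank K (↥v.toValuationSubring ⧸ p) = 1 := hv
    intro x
    obtain ⟨c, hc⟩ :=
      (finrank_eq_one_iff_of_nonzero' (1 : ↥v.toValuationSubring ⧸ p) one_ne_zero).mp h1 x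
    exact ⟨c, by rw [← hc, Algebra.smul_def, mul_one]⟩
  haveI : Algebra.IsIntegral K (↥v.toValuationSubring ⧸ p) :=
    ⟨fun x => by obtain ⟨c, rfl⟩ := hsurj x; exact isIntegral_algebraMap⟩
  haveI : IsScalarTower K ↥v.toValuationSubring (relB v F') :=
    IsScalarTower.of_algebraMap_eq fun _ => rfl
  haveI : IsScalarTower K (↥v.toValuationSubring ⧸ p) (relB v F' ⧸ P.asIdeal) :=
    Ideal.Quotient.isScalarTower_of_liesOver K P.asIdeal p
  haveI : Algebra.IsIntegral (↥v.toValuationSubring ⧸ p) (relB v F' ⧸ P.asIdeal) :=
    Ideal.Quotient.algebra_isIntegral_of_liesOver P.asIdeal p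
  haveI : Algebra.IsIntegral K (relB v F' ⧸ P.asIdeal) :=
    ⟨fun w => isIntegral_trans (A := ↥v.toValuationSubring ⧸ p) w
      (Algebra.IsIntegral.isIntegral w)⟩
  have hbij := IsAlgClosed.algebraMap_bijective_of_isIntegral (k := K)
    (K := relB v F' ⧸ P.asIdeal)
  rw [Ideal.inertiaDeg_eq_of_isMaximal p P.asIdeal,
    finrank_eq_one_iff_of_nonzero' (1 : relB v F' ⧸ P.asIdeal) one_ne_zero]
  intro w
  obtain ⟨c, hc⟩ := hbij.2 w
  refine ⟨algebraMap K (↥v.toValuationSubring ⧸ p) c, ?_⟩
  rw [← hc, Algebra.smul_def, mul_one,
    ← IsScalarTower.algebraMap_apply K (↥v.toValuationSubring ⧸ p) (relB v F' ⧸ P.asIdeal)]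

omit [CharZero K] [FiniteDimensional F F'] in
/-- The (Prelude) inertia degree is one when all places have degree one. -/
theorem inertiaDeg_eq_one_of_deg [Algebra.IsIntegral F F'] (hF : ∀ v : Place K F, v.deg = 1)
    (hF' : ∀ w : Place K F', w.deg = 1) (w : Place K F') : w.inertiaDeg F = 1 := by
  have h := w.deg_restrict_mul_inertiaDeg (F := F)
  rw [hF, hF', one_mul] at h
  exact h

/-- **Norm formula** `π_* div f = div (N_{F'/F} f)` for a finite extension of function fields
over an algebraically closed constant field of characteristic zero (all places of degree one). -/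
theorem pushforwardNormFormula [IsAlgClosed K] (hF : ∀ v : Place K F, v.deg = 1)
    (hF' : ∀ w : Place K F', w.deg = 1) : Divisor.PushforwardNormFormula K F F' := by
  classical
  intro f hf D hD v
  haveI : CharZero F := charZero_of_algebra K F
  have key := ordV_norm (R := ↥v.toValuationSubring) (B := relB v F') (L := F) (F := F')
    v.heightOneSpectrum hf
  have hL : v.ord (Algebra.norm F f) = ordV v.heightOneSpectrum F (Algebra.norm F f) := rfl
  rw [hL, key, Divisor.pushforward_apply, ← Finset.sum_filter]
  set T := (finite_primesAbove (B := relB v F') v.heightOneSpectrum).toFinset with hT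
  have hmemT : ∀ P : HeightOneSpectrum (relB v F'), P ∈ T := fun P => by
    rw [hT, Set.Finite.mem_toFinset]; exact mem_primesAbove v P
  have hR : ∑ P ∈ T, (P.asIdeal.inertiaDeg ↥v.toValuationSubring : ℤ) * ordV P F' f
      = ∑ w ∈ T.image (placeOfPrime (K := K) (F := F')), D w := by
    rw [Finset.sum_image (fun P _ Q _ h => placeOfPrime_injective h)]
    refine Finset.sum_congr rfl fun P _ => ?_
    rw [inertiaDeg_relB v (hF v) P, Nat.cast_one, one_mul, hD, placeOfPrime_ord P hf]
    rfl
  rw [hR]
  have hLsum : ∑ w ∈ D.support with w.restrict F = v, D w * (w.inertiaDeg F : ℤ)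
      = ∑ w ∈ D.support with w.restrict F = v, D w := by
    refine Finset.sum_congr rfl fun w _ => ?_
    rw [inertiaDeg_eq_one_of_deg hF hF' w, Nat.cast_one, mul_one]
  rw [hLsum]
  apply Finset.sum_subset
  · intro w hw
    rw [Finset.mem_filter] at hw
    obtain ⟨P, rfl⟩ := exists_placeOfPrime_of_restrict v w hw.2
    exact Finset.mem_image_of_mem _ (hmemT P)
  · intro w hw hnot
    rw [Finset.mem_image] at hw
    obtain ⟨P, -, rfl⟩ := hw
    rw [Finset.mem_filter, not_and] at hnot
    by_contra h
    exact hnot (Finsupp.mem_support_iff.mpr h) (restrict_placeOfPrime v P)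

end Relative

section Formal

variable {K : Type*} [Field K] {F F' : Type*} [Field F] [Field F'] [Algebra K F] [Algebra K F']
  [Algebra F F'] [IsScalarTower K F F'] [Algebra.IsIntegral F F'] [Module.Finite F F']
  [HasPrincipalDivisors K F']

/-- The fibre form of the norm formula: `∑_{w | v} f(w|v) ord_w f = ord_v (N f)`. -/
theorem sum_fiber_ord_mul_inertiaDeg (H : Divisor.PushforwardNormFormula K F F') (v : Place K F)
    {f : F'} (hf : f ≠ 0) :
    ∑ w ∈ v.fiber F', w.ord f * (w.inertiaDeg F : ℤ) = v.ord (Algebra.norm F f) := by
  classical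
  obtain ⟨D, hD, -⟩ := HasPrincipalDivisors.exists_divisor (K := K) f hf
  rw [← H f hf D hD v, Divisor.pushforward_apply, ← Finset.sum_filter]
  symm
  have hsub : (D.support.filter fun w => w.restrict F = v) ⊆ v.fiber F' := by
    intro w hw
    rw [Finset.mem_filter] at hw
    exact Place.mem_fiber.mpr hw.2
  rw [← Finset.sum_subset hsub]
  · exact Finset.sum_congr rfl fun w _ => by rw [hD w]
  · intro w hw hnot
    rw [Finset.mem_filter, not_and] at hnot
    have h0 : D w = 0 := by
      by_contra h
      exact hnot (Finsupp.mem_support_iff.mpr h) (Place.mem_fiber.mp hw)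
    rw [← hD w, h0, zero_mul]

/-- `∑_{w | v} e(w|v) f(w|v) = [F' : F]` is a formal consequence of the norm formula. -/
theorem sumRamificationInertia_of_normFormula (H : Divisor.PushforwardNormFormula K F F') :
    SumRamificationInertia K F F' := by
  refine ⟨fun v => ?_⟩
  obtain ⟨t, ht⟩ := Fermat.Agent.S24.exists_ord_eq_one v
  have ht0 : t ≠ 0 := by
    rintro rfl
    simp at ht
  have ht0' : algebraMap F F' t ≠ 0 := by simpa using ht0
  have h1 := sum_fiber_ord_mul_inertiaDeg H v ht0'
  rw [Algebra.norm_algebraMap, Fermat.Agent.S24.ord_pow, ht, mul_one] at h1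
  rw [← h1]
  refine Finset.sum_congr rfl fun w hw => ?_
  rw [w.ord_restrict, Place.mem_fiber.mp hw, ht, mul_one]

end Formal

section Along

variable {K : Type*} [Field K] [IsAlgClosed K] [CharZero K] {F F' : Type*} [Field F] [Field F']
  [Algebra K F] [Algebra K F']

/-- The norm formula along a finite `K`-embedding of function fields. -/
theorem normFormulaAlong (φ : F →ₐ[K] F') (hfin : FiniteAlong K φ)
    (hF : ∀ v : Place K F, v.deg = 1) (hF' : ∀ w : Place K F', w.deg = 1) :
    NormFormulaAlong K φ hfin := by
  letI := algebraAlong φ
  haveI := isScalarTower_along φ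
  haveI : Module.Finite F F' := hfin
  exact pushforwardNormFormula hF hF'

/-- The fundamental identity along a finite `K`-embedding of function fields. -/
theorem fundamentalIdentityAlong [HasPrincipalDivisors K F'] (φ : F →ₐ[K] F')
    (hφ : φ.toRingHom.IsIntegral) (hfin : FiniteAlong K φ)
    (hF : ∀ v : Place K F, v.deg = 1) (hF' : ∀ w : Place K F', w.deg = 1) :
    FundamentalIdentityAlong K φ hφ := by
  letI := algebraAlong φ
  haveI := isScalarTower_along φ
  haveI := isIntegral_along φ hφ
  haveI : Module.Finite F F' := hfin
  haveI : SumRamificationInertia K F F' :=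
    sumRamificationInertia_of_normFormula (pushforwardNormFormula hF hF')
  exact instFundamentalIdentityOfSumRamificationInertia

end Along

end Fermat.Agent.S37.H75
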