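/-
S37 / H75 (helper75): the rest of the relative dictionary (G2) over an arbitrary base place
`v` of `F`, for a finite extension `F'/F` of function fields over `K` (char 0):
`A = O_v`, `B = relB v F'` (integral closure of `A` in `F'`).

* `exists_relB_eq_of_forall_mem` : a function regular at all places above `v` lies in `B`;
* `relB_free`, `map_maximalIdeal_ne_bot`, `mem_factors_iff` : `B` is finite free over `A`, and the
  prime factors of `m_v B` are exactly the nonzero primes of `B`;
* `ramificationIndex_placeOfPrime` : Prelude ramification index = Mathlib `Ideal.ramificationIdx`;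
* `norm_relB` : the norm of `F'/F` restricts to the norm of `B/A`;
* `mem_asIdeal_iff_nonunits` : `b ∈ P` iff `b` is a non-unit of the valuation ring of the place
  of `P`;
* `fiber_eq_image` : the fibre of `v` as the image of the height-one primes of `B`;
* `pushforward_pullback` : `π_* π^* D = [F' : F] • D`.
-/
import Mathlib
import Fermat.Prelude.Def_AlgebraicCurve_Correspondence
import Fermat.Agent.S24.Residue
import Fermat.Agent.S37.H75.Relative

set_option autoImplicit false
set_option linter.unusedSectionVars false
set_option linter.style.haveILetI false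

open AlgebraicCurve IsDedekindDomain

noncomputable section

namespace Fermat.Agent.S37.H75

open Fermat.Agent.S24.H52 Fermat.Agent.S18.H42 Fermat.Agent.S18.H53

section Dict

variable {K : Type*} [Field K] [CharZero K] {F : Type*} [Field F] [Algebra K F]
variable {F' : Type*} [Field F'] [Algebra K F'] [Algebra F F'] [IsScalarTower K F F']
  [FiniteDimensional F F']

variable (v : Place K F)

attribute [local instance] relBAlgebra relB_isScalarTower relB_isDedekindDomain
  relB_isFractionRing relB_finite relB_isTorsionFree

/-- A function which is regular at every place above `v` lies in the integral closure of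
`O_v`. -/
theorem exists_relB_eq_of_forall_mem (g : F')
    (hg : ∀ w : Place K F', w.restrict F = v → g ∈ w.toValuationSubring) :
    ∃ b : relB v F', algebraMap (relB v F') F' b = g := by
  have h : ∀ P : HeightOneSpectrum (relB v F'), P.valuation F' g ≤ 1 := by
    intro P
    by_cases hg0 : g = 0
    · rw [hg0, map_zero]
      exact zero_le_one
    · exact (mem_placeOfPrime_iff (K := K) P hg0).mp (hg _ (restrict_placeOfPrime v P))
  obtain ⟨b, hb⟩ :=
    IsDedekindDomain.HeightOneSpectrum.mem_integers_of_valuation_le_one F' g h
  exact ⟨b, hb⟩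

/-- `B` is free over the discrete valuation ring `O_v`. -/
theorem relB_free : Module.Free ↥v.toValuationSubring (relB v F') :=
  Module.free_of_finite_type_torsion_free'

theorem maximalIdeal_ne_bot : IsLocalRing.maximalIdeal ↥v.toValuationSubring ≠ ⊥ :=
  IsDiscreteValuationRing.not_a_field _

theorem map_maximalIdeal_ne_bot :
    (IsLocalRing.maximalIdeal ↥v.toValuationSubring).map
      (algebraMap ↥v.toValuationSubring (relB v F')) ≠ ⊥ :=
  Ideal.map_ne_bot_of_ne_bot (maximalIdeal_ne_bot v)

/-- The prime factors of `m_v B` are exactly the nonzero primes of `B`. -/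
theorem mem_factors_iff (P : Ideal (relB v F')) :
    P ∈ (UniqueFactorizationMonoid.factors ((IsLocalRing.maximalIdeal ↥v.toValuationSubring).map
      (algebraMap ↥v.toValuationSubring (relB v F')))).toFinset ↔ P.IsPrime ∧ P ≠ ⊥ := by
  have h := IsDedekindDomain.mem_primesOverFinset_iff (maximalIdeal_ne_bot v) (relB v F') (P := P)
  rw [IsDedekindDomain.primesOverFinset] at h
  rw [h]
  constructor
  · rintro ⟨hP, hlo⟩
    refine ⟨hP, ?_⟩
    rintro rfl
    have := hlo.over
    rw [Ideal.under_bot] at this
    exact maximalIdeal_ne_bot v this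
  · rintro ⟨hP, hne⟩
    exact ⟨hP, ⟨(under_eq_maximalIdeal v ⟨P, hP, hne⟩).symm⟩⟩

/-- The Prelude's ramification index of the place of `P` over `F` is Mathlib's ramification
index of `P` over `O_v`. -/
theorem ramificationIndex_placeOfPrime (P : HeightOneSpectrum (relB v F')) :
    (placeOfPrime (K := K) (F := F') P).ramificationIndex F
      = P.asIdeal.ramificationIdx ↥v.toValuationSubring := by
  set p := IsLocalRing.maximalIdeal ↥v.toValuationSubring with hpdef
  haveI : P.asIdeal.LiesOver p := ⟨(under_eq_maximalIdeal v P).symm⟩
  obtain ⟨π, hπ⟩ := IsDiscreteValuationRing.exists_irreducible ↥v.toValuationSubring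
  have hp : p = Ideal.span {π} := hπ.maximalIdeal_eq
  have hmap : p.map (algebraMap ↥v.toValuationSubring (relB v F'))
      = Ideal.span {algebraMap ↥v.toValuationSubring (relB v F') π} := by
    rw [hp, Ideal.map_span, Set.image_singleton]
  have hπ0 : algebraMap ↥v.toValuationSubring (relB v F') π ≠ 0 := by
    intro h
    apply map_maximalIdeal_ne_bot (F' := F') v
    rw [← hpdef, hmap, h]
    simp
  have hπF : algebraMap F F' (π : F) ≠ 0 := by
    have h0 : (π : F) ≠ 0 := by
      simpa [ne_eq, ZeroMemClass.coe_eq_zero] using hπ.ne_zero
    simpa using h0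
  have hcoe : algebraMap F F' (π : F)
      = algebraMap (relB v F') F' (algebraMap ↥v.toValuationSubring (relB v F') π) := rfl
  have h1 : (P.asIdeal.ramificationIdx ↥v.toValuationSubring : ℤ)
      = primeOrd P (algebraMap F F' (π : F)) := by
    rw [Ideal.IsDedekindDomain.ramificationIdx_eq_multiplicity p P.asIdeal
      (map_maximalIdeal_ne_bot v), hmap, primeOrd, hcoe, P.valuation_of_algebraMap,
      P.intValuation_eq_exp_neg_multiplicity hπ0, WithZero.log_exp, neg_neg]
  have h2 : (placeOfPrime (K := K) (F := F') P).ord (algebraMap F F' (π : F))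
      = ((placeOfPrime (K := K) (F := F') P).ramificationIndex F : ℤ) := by
    rw [Place.ord_restrict, restrict_placeOfPrime, v.ord_coe_irreducible hπ, mul_one]
  have h3 := placeOfPrime_ord (K := K) P hπF
  have h4 : ((placeOfPrime (K := K) (F := F') P).ramificationIndex F : ℤ)
      = (P.asIdeal.ramificationIdx ↥v.toValuationSubring : ℤ) := by
    rw [← h2, h3, h1]
  exact_mod_cast h4

/-- The norm of `F'/F` restricts to the norm of `B/A`. -/
theorem norm_relB (b : relB v F') :
    Algebra.norm F (algebraMap (relB v F') F' b)
      = algebraMap ↥v.toValuationSubring F (Algebra.norm ↥v.toValuationSubring b) := by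
  haveI : CharZero F := charZero_of_algebra K F
  haveI := relB_free (F' := F') v
  rw [← Algebra.algebraMap_intNorm (A := ↥v.toValuationSubring) (K := F) (L := F')
    (B := relB v F') b, Algebra.intNorm_eq_norm]

/-- Membership in a height-one prime of `B` is being a non-unit of the valuation ring of its
place. -/
theorem mem_asIdeal_iff_nonunits (P : HeightOneSpectrum (relB v F')) (b : relB v F') :
    b ∈ P.asIdeal ↔
      algebraMap (relB v F') F' b ∈ (placeOfPrime (K := K) (F := F') P).toValuationSubring.nonunits := by
  by_cases hb : b = 0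
  · subst hb
    rw [map_zero]
    exact ⟨fun _ => (ValuationSubring.mem_nonunits_iff_or _).mpr (Or.inl rfl),
      fun _ => Ideal.zero_mem _⟩
  · have hb' : algebraMap (relB v F') F' b ≠ 0 := by
      simpa using (IsFractionRing.injective (relB v F') F').ne hb
    rw [← Fermat.Agent.S24.H94.ord_pos_iff_mem_nonunits _ hb', placeOfPrime_ord (K := K) P hb',
      primeOrd_algebraMap_pos_iff P hb]

/-- The finite set of ALL height-one primes of `B = relB v F'` (they all lie over `m_v`). -/
def relPrimes (v : Place K F) (F' : Type*) [Field F'] [Algebra K F'] [Algebra F F']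
    [IsScalarTower K F F'] [FiniteDimensional F F'] : Finset (HeightOneSpectrum (relB v F')) :=
  (finite_primesAbove (B := relB v F') v.heightOneSpectrum).toFinset

theorem mem_relPrimes (P : HeightOneSpectrum (relB v F')) : P ∈ relPrimes v F' := by
  rw [relPrimes, Set.Finite.mem_toFinset]
  exact mem_primesAbove v P

/-- The fibre of `v` is the image of the height-one primes of `B`. -/
theorem fiber_eq_image [DecidableEq (Place K F')] [HasPrincipalDivisors K F'] :
    v.fiber F' = (relPrimes v F').image (placeOfPrime (K := K) (F := F')) := by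
  ext w
  rw [Place.mem_fiber, Finset.mem_image]
  constructor
  · intro hw
    obtain ⟨P, rfl⟩ := exists_placeOfPrime_of_restrict v w hw
    exact ⟨P, mem_relPrimes v P, rfl⟩
  · rintro ⟨P, -, rfl⟩
    exact restrict_placeOfPrime v P

/-- Sums over the fibre of `v` are sums over the height-one primes of `B`. -/
theorem sum_fiber_eq {M : Type*} [AddCommMonoid M] [HasPrincipalDivisors K F']
    (f : Place K F' → M) :
    ∑ w ∈ v.fiber F', f w = ∑ P ∈ relPrimes v F', f (placeOfPrime (K := K) (F := F') P) := by
  classical
  rw [fiber_eq_image, Finset.sum_image (fun P _ Q _ h => placeOfPrime_injective h)]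

/-- Products over the fibre of `v` are products over the height-one primes of `B`. -/
theorem prod_fiber_eq {M : Type*} [CommMonoid M] [HasPrincipalDivisors K F']
    (f : Place K F' → M) :
    ∏ w ∈ v.fiber F', f w = ∏ P ∈ relPrimes v F', f (placeOfPrime (K := K) (F := F') P) := by
  classical
  rw [fiber_eq_image, Finset.prod_image (fun P _ Q _ h => placeOfPrime_injective h)]

section Primed

set_option linter.deprecated false

/-- Primed (deprecated Mathlib) form of `ramificationIndex_placeOfPrime`. -/
theorem ramificationIdx'_relB (P : HeightOneSpectrum (relB v F')) :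
    Ideal.ramificationIdx' (IsLocalRing.maximalIdeal ↥v.toValuationSubring) P.asIdeal
      = (placeOfPrime (K := K) (F := F') P).ramificationIndex F := by
  haveI : P.asIdeal.LiesOver (IsLocalRing.maximalIdeal ↥v.toValuationSubring) :=
    ⟨(under_eq_maximalIdeal v P).symm⟩
  rw [ramificationIndex_placeOfPrime]
  exact Ideal.ramificationIdx'_eq_ramificationIdx'
    (IsLocalRing.maximalIdeal ↥v.toValuationSubring) P.asIdeal
    (map_maximalIdeal_ne_bot (F' := F') v)

/-- Primed (deprecated Mathlib) form of `inertiaDeg_relB`. -/
theorem inertiaDeg'_relB [IsAlgClosed K] (hv : v.deg = 1) (P : HeightOneSpectrum (relB v F')) :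
    Ideal.inertiaDeg' (IsLocalRing.maximalIdeal ↥v.toValuationSubring) P.asIdeal = 1 := by
  haveI : P.asIdeal.LiesOver (IsLocalRing.maximalIdeal ↥v.toValuationSubring) :=
    ⟨(under_eq_maximalIdeal v P).symm⟩
  haveI : P.asIdeal.IsMaximal := P.isMaximal
  exact (Ideal.inertiaDeg'_eq_inertiaDeg (IsLocalRing.maximalIdeal ↥v.toValuationSubring)
    P.asIdeal).trans (inertiaDeg_relB v hv P)

end Primed

end Dict

end Fermat.Agent.S37.H75
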