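/-
S37 / H75 (helper75): fibres of a finite extension of function fields are NONEMPTY, and the
Along-shaped inertia statement (the `exists_over` / `inertia_one` fields of helper36's
`EvalHyp`).
-/
import Mathlib
import Fermat.Prelude.Def_AlgebraicCurve_Correspondence
import Fermat.Agent.S37.H75.Dict

set_option autoImplicit false
set_option linter.unusedSectionVars false
set_option linter.style.haveILetI false

open AlgebraicCurve IsDedekindDomain

noncomputable section

namespace Fermat.Agent.S37.H75

open Fermat.Agent.S24.H52 Fermat.Agent.S18.H42 Fermat.Agent.S18.H53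

section Fibre

variable {K : Type*} [Field K] [CharZero K] {F : Type*} [Field F] [Algebra K F]
variable {F' : Type*} [Field F'] [Algebra K F'] [Algebra F F'] [IsScalarTower K F F']
  [FiniteDimensional F F']

attribute [local instance] relBAlgebra relB_isScalarTower relB_isDedekindDomain
  relB_isFractionRing relB_finite relB_isTorsionFree

/-- The integral closure of `O_v` in `F'` has a height-one prime. -/
theorem nonempty_heightOneSpectrum_relB (v : Place K F) :
    Nonempty (HeightOneSpectrum (relB v F')) := by
  have hker : RingHom.ker (algebraMap ↥v.toValuationSubring (relB v F'))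
      ≤ IsLocalRing.maximalIdeal ↥v.toValuationSubring := by
    intro x hx
    have h0 : x = 0 := by
      have hinj : Function.Injective (algebraMap ↥v.toValuationSubring (relB v F')) :=
        FaithfulSMul.algebraMap_injective _ _
      exact hinj (by rw [RingHom.mem_ker.mp hx, map_zero])
    rw [h0]
    exact Ideal.zero_mem _
  obtain ⟨Q, hQmax, hQ⟩ := Ideal.exists_ideal_over_maximal_of_isIntegral (S := relB v F')
    (IsLocalRing.maximalIdeal ↥v.toValuationSubring) hker
  refine ⟨⟨Q, hQmax.isPrime, ?_⟩⟩
  rintro rfl
  apply maximalIdeal_ne_bot v
  rw [← hQ]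
  exact Ideal.comap_bot_of_injective _ (FaithfulSMul.algebraMap_injective _ _)

/-- **Fibres are nonempty**: every place of `F` extends to `F'`. -/
theorem exists_restrict_eq (v : Place K F) : ∃ w : Place K F', w.restrict F = v := by
  obtain ⟨P⟩ := nonempty_heightOneSpectrum_relB (F' := F') v
  exact ⟨placeOfPrime (K := K) (F := F') P, restrict_placeOfPrime v P⟩

end Fibre

section Along

variable {K : Type*} [Field K] [CharZero K] {F F' : Type*} [Field F] [Field F']
  [Algebra K F] [Algebra K F']

/-- Fibres along a finite `K`-embedding are nonempty (`EvalHyp.exists_over`). -/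
theorem exists_restrictAlong_eq (φ : F →ₐ[K] F') (hφ : φ.toRingHom.IsIntegral)
    (hfin : FiniteAlong K φ) (v : Place K F) : ∃ w : Place K F', w.restrictAlong φ hφ = v := by
  letI := algebraAlong φ
  haveI := isScalarTower_along φ
  haveI := isIntegral_along φ hφ
  haveI : Module.Finite F F' := hfin
  exact exists_restrict_eq v

omit [CharZero K] in
/-- Inertia degrees along `φ` are one when all places have degree one (`EvalHyp.inertia_one`). -/
theorem inertiaDegAlong_eq_one (φ : F →ₐ[K] F') (hφ : φ.toRingHom.IsIntegral)
    (hF : ∀ v : Place K F, v.deg = 1) (hF' : ∀ w : Place K F', w.deg = 1) (w : Place K F') :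
    w.inertiaDegAlong φ hφ = 1 := by
  letI := algebraAlong φ
  haveI := isScalarTower_along φ
  haveI := isIntegral_along φ hφ
  exact inertiaDeg_eq_one_of_deg hF hF' w

end Along

end Fermat.Agent.S37.H75
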