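/-
S37 / H75 (helper75): generic function-field facts over an algebraically closed constant field
of characteristic zero, on top of the landed S24 dictionary (`S24/H79/Fib`, `S24/Residue`).

* `IsFunctionField K F` : `F` is finite over `K(f)` for every transcendental `f`.
* `isFunctionField_of_adjoin` : finitely generated + algebraic over `K(t)` suffices.
* `hasPrincipalDivisors` : principal divisors exist and have degree zero.
-/
import Mathlib
import Fermat.Prelude.Def_AlgebraicCurve_Correspondence
import Fermat.Agent.S24.Residue
import Fermat.Agent.S24.Ord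
import Fermat.Agent.S24.H79.Fib

set_option autoImplicit false
set_option linter.style.haveILetI false

open AlgebraicCurve IntermediateField

noncomputable section

namespace Fermat.Agent.S37.H75

universe u v

variable {K : Type u} {F : Type v} [Field K] [Field F] [Algebra K F]

/-- `F` is a function field in one variable over `K`: finite over `K(f)` for every transcendental
`f`. -/
def IsFunctionField (K F : Type*) [Field K] [Field F] [Algebra K F] : Prop :=
  ∀ f : F, Transcendental K f → FiniteDimensional K⟮f⟯ F

/-- Exchange: if `F` is algebraic over `K(t)` then it is algebraic over `K(f)` for every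
transcendental `f`. -/
theorem isAlgebraic_adjoin_of_transcendental (t : F) [Algebra.IsAlgebraic K⟮t⟯ F]
    (f : F) (hf : Transcendental K f) : Algebra.IsAlgebraic K⟮f⟯ F := by
  have h1 : Algebra.IsAlgebraic (Algebra.adjoin K ({t} : Set F)) F :=
    IntermediateField.isAlgebraic_adjoin_iff_top.mp inferInstance
  have hle : Algebra.trdeg K F ≤ Cardinal.mk (({t} : Set F)) :=
    Algebra.IsAlgebraic.trdeg_le_cardinalMk K ({t} : Set F)
  have hx : AlgebraicIndependent K (fun _ : PUnit.{v + 1} => f) :=
    (algebraicIndependent_unique_type_iff (ι := PUnit.{v + 1})).mpr hf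
  have hcard : Algebra.trdeg K F ≤ Cardinal.mk PUnit.{v + 1} := by
    refine hle.trans ?_
    simp
  have hb := hx.isTranscendenceBasis_of_trdeg_le_of_finite hcard
  have h2 := hb.isAlgebraic_field
  have hr : Set.range (fun _ : PUnit.{v + 1} => f) = {f} := by
    ext y; simp [eq_comm]
  rwa [hr] at h2

/-- A finitely generated field extension which is algebraic over `K(t)` is a function field. -/
theorem isFunctionField_of_adjoin (t : F) [Algebra.IsAlgebraic K⟮t⟯ F] (S : Finset F)
    (hS : IntermediateField.adjoin K (S : Set F) = ⊤) : IsFunctionField K F := by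
  intro f hf
  have := isAlgebraic_adjoin_of_transcendental t f hf
  have hfin : FiniteDimensional K⟮f⟯ (IntermediateField.adjoin K⟮f⟯ (S : Set F)) :=
    IntermediateField.finiteDimensional_adjoin (K := K⟮f⟯) (S := (S : Set F))
      (fun x _ => (Algebra.IsAlgebraic.isAlgebraic (R := K⟮f⟯) x).isIntegral)
  have htop : IntermediateField.adjoin K⟮f⟯ (S : Set F) = ⊤ := by
    rw [eq_top_iff]
    intro x _
    have hx : x ∈ IntermediateField.adjoin K (S : Set F) := hS ▸ IntermediateField.mem_top
    have hle : IntermediateField.adjoin K (S : Set F) ≤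
        (IntermediateField.adjoin K⟮f⟯ (S : Set F)).restrictScalars K := by
      rw [IntermediateField.adjoin_le_iff]
      intro y hy
      exact IntermediateField.subset_adjoin K⟮f⟯ _ hy
    exact hle hx
  rw [htop] at hfin
  exact (IntermediateField.topEquiv (F := K⟮f⟯) (E := F)).toLinearEquiv.finiteDimensional

/-- Over an algebraically closed field, algebraic elements are constants, hence have order zero
at every place. -/
theorem ord_eq_zero_of_isAlgebraic [IsAlgClosed K] (v : Place K F) {f : F}
    (hf : IsAlgebraic K f) (hf0 : f ≠ 0) : v.ord f = 0 := by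
  have hint : IsIntegral K f := hf.isIntegral
  have hdeg : (minpoly K f).degree = 1 :=
    IsAlgClosed.degree_eq_one_of_irreducible K (minpoly.irreducible hint)
  obtain ⟨a, rfl⟩ := minpoly.mem_range_of_degree_eq_one K f hdeg
  have ha : a ≠ 0 := by
    rintro rfl
    exact hf0 (map_zero _)
  exact Fermat.Agent.S24.ord_algebraMap v ha

theorem adjoin_inv_eq (f : F) : K⟮f⁻¹⟯ = K⟮f⟯ := by
  apply le_antisymm
  · rw [IntermediateField.adjoin_simple_le_iff]
    exact inv_mem (IntermediateField.mem_adjoin_simple_self K f)
  · rw [IntermediateField.adjoin_simple_le_iff]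
    have := inv_mem (IntermediateField.mem_adjoin_simple_self K f⁻¹)
    rwa [inv_inv] at this

theorem transcendental_inv {f : F} (hf : Transcendental K f) : Transcendental K f⁻¹ := by
  intro h
  exact hf (by simpa using h.inv)

/-- **Principal divisors.** In a function field over an algebraically closed field of
characteristic zero every nonzero function has a (finitely supported) divisor, of degree zero. -/
theorem hasPrincipalDivisors [IsAlgClosed K] [CharZero K] (hF : IsFunctionField K F) :
    HasPrincipalDivisors K F := by
  classical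
  refine ⟨fun f hf0 => ?_⟩
  by_cases hf : IsAlgebraic K f
  · refine ⟨0, fun v => ?_, by simp⟩
    rw [ord_eq_zero_of_isAlgebraic v hf hf0]
    rfl
  · have htr : Transcendental K f := hf
    have htr' : Transcendental K f⁻¹ := transcendental_inv htr
    have : FiniteDimensional K⟮f⟯ F := hF f htr
    obtain ⟨Z, hZ, hZsum⟩ := Fermat.Agent.S24.H79.exists_finset_ord_pos_adjoin f htr
    obtain ⟨P, hP, hPsum⟩ := Fermat.Agent.S24.H79.exists_finset_ord_pos K⟮f⟯ f⁻¹ htr'
      (adjoin_inv_eq f)
    have hsupp : ∀ v : Place K F, v.ord f ≠ 0 → v ∈ Z ∪ P := by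
      intro v hv
      rw [Finset.mem_union, hZ, hP, v.ord_inv]
      omega
    refine ⟨Finsupp.onFinset (Z ∪ P) (fun v => v.ord f) hsupp, fun v => rfl, ?_⟩
    have hdeg : ∀ v : Place K F, v.deg = 1 := fun v => Fermat.Agent.S24.deg_eq_one f v
    have hdisj : Disjoint Z P := by
      rw [Finset.disjoint_left]
      intro v hvZ hvP
      rw [hZ] at hvZ
      rw [hP, v.ord_inv] at hvP
      omega
    have h1 : Divisor.degree (Finsupp.onFinset (Z ∪ P) (fun v : Place K F => v.ord f) hsupp)
        = ∑ v ∈ Z ∪ P, v.ord f := by
      rw [Divisor.degree, Finsupp.liftAddHom_apply, Finsupp.onFinset_sum]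
      · refine Finset.sum_congr rfl fun v _ => ?_
        simp [hdeg v]
      · intro v; simp
    rw [h1, Finset.sum_union hdisj, hZsum]
    have h2 : ∑ v ∈ P, v.ord f = -∑ v ∈ P, v.ord f⁻¹ := by
      rw [← Finset.sum_neg_distrib]
      exact Finset.sum_congr rfl fun v _ => by rw [v.ord_inv, neg_neg]
    rw [h2, hPsum]
    ring

section AlongHom

variable {K' : Type*} {E E' : Type*} [Field K'] [Field E] [Field E'] [Algebra K' E]
  [Algebra K' E']

theorem transcendental_algHom (φ : E →ₐ[K'] E') {t : E} (ht : Transcendental K' t) :
    Transcendental K' (φ t) := by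
  intro h
  exact ht ((isAlgebraic_algHom_iff φ φ.injective).mp h)

theorem exists_eq_of_mem_adjoin (φ : E →ₐ[K'] E') (t : E) (c : K'⟮φ t⟯) :
    ∃ c' : E, φ c' = (c : E') := by
  have hle : K'⟮φ t⟯ ≤ φ.fieldRange := by
    rw [IntermediateField.adjoin_simple_le_iff]
    exact ⟨t, rfl⟩
  exact hle c.2

/-- A `K`-embedding of a field containing a transcendental element into a function field is
integral. -/
theorem isIntegral_along_of_isFunctionField (hE' : IsFunctionField K' E') (φ : E →ₐ[K'] E')
    {t : E} (ht : Transcendental K' t) : φ.toRingHom.IsIntegral := by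
  intro x
  haveI : FiniteDimensional K'⟮φ t⟯ E' := hE' (φ t) (transcendental_algHom φ ht)
  have hx : IsIntegral K'⟮φ t⟯ x := Algebra.IsIntegral.isIntegral x
  obtain ⟨p, hp, hpx⟩ := hx
  have hl : p.map (algebraMap K'⟮φ t⟯ E') ∈ Polynomial.lifts φ.toRingHom := by
    rw [Polynomial.lifts_iff_coeff_lifts]
    intro n
    rw [Polynomial.coeff_map]
    obtain ⟨c', hc'⟩ := exists_eq_of_mem_adjoin φ t (p.coeff n)
    exact ⟨c', hc'⟩
  obtain ⟨q, hq, -, hqm⟩ := Polynomial.lifts_and_degree_eq_and_monic hl (hp.map _)
  refine ⟨q, hqm, ?_⟩
  rw [← Polynomial.eval_map, hq, Polynomial.eval_map]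
  exact hpx

/-- A `K`-embedding of a field containing a transcendental element into a function field is
finite. -/
theorem finiteAlong_of_isFunctionField (hE' : IsFunctionField K' E') (φ : E →ₐ[K'] E')
    {t : E} (ht : Transcendental K' t) : FiniteAlong K' φ := by
  letI := algebraAlong φ
  haveI : FiniteDimensional K'⟮φ t⟯ E' := hE' (φ t) (transcendental_algHom φ ht)
  obtain ⟨S, hS⟩ := (Module.Finite.fg_top : (⊤ : Submodule K'⟮φ t⟯ E').FG)
  show Module.Finite E E'
  refine ⟨⟨S, ?_⟩⟩
  have key : ∀ x ∈ Submodule.span K'⟮φ t⟯ (S : Set E'), x ∈ Submodule.span E (S : Set E') := by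
    intro x hx
    induction hx using Submodule.span_induction with
    | mem y hy => exact Submodule.subset_span hy
    | zero => exact Submodule.zero_mem _
    | add y z _ _ hy hz => exact Submodule.add_mem _ hy hz
    | smul c y _ hy =>
      obtain ⟨c', hc'⟩ := exists_eq_of_mem_adjoin φ t c
      have h : c • y = c' • y := by
        rw [Algebra.smul_def, Algebra.smul_def]
        congr 1
        exact hc'.symm
      rw [h]
      exact Submodule.smul_mem _ _ hy
  rw [eq_top_iff]
  intro x _
  exact key x (hS ▸ Submodule.mem_top)

end AlongHom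

end Fermat.Agent.S37.H75
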