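/-
S37 / H75 (helper75): the guard of the Prelude's Hecke operator,
`ModularCurve.HeckeInputsAlong (AlgebraicClosure ℚ) N ℓ`, for ALL levels `N` and all `ℓ`.

`heckeOperatorAlong` is a `dite` on this proposition, so it must be proved for the Hecke
operators on `J₀(N)` to be the honest correspondences.  Proof: the modular function fields are
function fields in one variable over `ℚ̄` (landed S24: finitely generated, algebraic over
`ℚ̄(j)`, all places of degree one), `j` is transcendental, hence both degeneracy maps
`α, β : F_N → F_{Nℓ}` are finite, and the generic relative package (`Relative.lean`) gives the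
fundamental identity and the divisor norm formula.
-/
import Mathlib
import Fermat.Prelude.Def_ModularCurve_HeckeOperatorTotal
import Fermat.Agent.S24.Global
import Fermat.Agent.S24.ModGlobal
import Fermat.Agent.S37.H75.FunctionField
import Fermat.Agent.S37.H75.Relative

set_option autoImplicit false
set_option linter.style.haveILetI false

open AlgebraicCurve ModularCurve IntermediateField

noncomputable section

namespace Fermat.Agent.S37.H75

open Fermat.Agent.S24

variable (M : ℕ) [NeZero M]

/-- The modular function field of level `M` is algebraic over `ℚ̄(j)`. -/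
theorem isAlgebraic_FF : Algebra.IsAlgebraic Kbar⟮jgen M⟯ (FF M) := by
  classical
  haveI : Fintype (XX M) := Fintype.ofFinite _
  obtain ⟨G, -, -⟩ := exists_modularGlobalData M
  have h0 : Algebra.IsAlgebraic
      (IntermediateField.adjoin Kbar {jgen M - algebraMap Kbar (FF M) 0}) (FF M) :=
    (G.fin 0).isAlgebraic G.frac
  have hj0 : jgen M - algebraMap Kbar (FF M) 0 = jgen M := by simp
  exact hj0 ▸ h0

/-- `j` is transcendental over `ℚ̄`. -/
theorem transcendental_jgen : Transcendental Kbar (jgen M) := by
  classical
  haveI : Fintype (XX M) := Fintype.ofFinite _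
  obtain ⟨G, -, -⟩ := exists_modularGlobalData M
  intro halg
  have hint : IsIntegral Kbar (jgen M) := halg.isIntegral
  have hdeg : (minpoly Kbar (jgen M)).degree = 1 :=
    IsAlgClosed.degree_eq_one_of_irreducible Kbar (minpoly.irreducible hint)
  obtain ⟨a, ha⟩ := minpoly.mem_range_of_degree_eq_one Kbar (jgen M) hdeg
  apply G.D_ne_zero
  rw [← ha]
  exact (KaehlerDifferential.D Kbar (FF M)).map_algebraMap a

/-- Every place of the modular function field has degree one. -/
theorem deg_eq_one_FF (v : Place Kbar (FF M)) : v.deg = 1 := by
  haveI := isAlgebraic_FF M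
  exact deg_eq_one (jgen M) v

open scoped Classical in
/-- The modular function field is generated by the finitely many `j_d`, `d ∣ M`. -/
theorem adjoin_jF_eq_top :
    IntermediateField.adjoin Kbar
      ((Finset.univ.image (jF M) : Finset (FF M)) : Set (FF M)) = ⊤ := by
  rw [eq_top_iff]
  intro f _
  have key : ∀ P : MvPolynomial (M.divisors) Kbar, evF M P ∈
      IntermediateField.adjoin Kbar ((Finset.univ.image (jF M) : Finset (FF M)) : Set (FF M)) := by
    intro P
    have h1 : evF M P ∈ Algebra.adjoin Kbar (Set.range (jF M)) := by
      rw [Algebra.adjoin_range_eq_range_aeval]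
      exact ⟨P, rfl⟩
    have h2 : Algebra.adjoin Kbar (Set.range (jF M)) ≤ (IntermediateField.adjoin Kbar
        ((Finset.univ.image (jF M) : Finset (FF M)) : Set (FF M))).toSubalgebra := by
      apply Algebra.adjoin_le
      rintro _ ⟨d, rfl⟩
      apply IntermediateField.subset_adjoin
      simp
    exact h2 h1
  obtain ⟨P, Q, -, rfl⟩ := evF_frac M f
  exact div_mem (key P) (key Q)

/-- The modular function field is a function field in one variable over `ℚ̄`. -/
theorem isFunctionField_FF : IsFunctionField Kbar (FF M) := by
  classical
  haveI := isAlgebraic_FF M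
  exact isFunctionField_of_adjoin (jgen M) _ (adjoin_jF_eq_top M)

/-- Principal divisors of the modular function field exist and have degree zero. -/
theorem hasPrincipalDivisors_FF : HasPrincipalDivisors Kbar (FF M) :=
  hasPrincipalDivisors (isFunctionField_FF M)

/-- **The guard of the Hecke operator.**  All inputs of the Hecke correspondence
`T_ℓ = α_* β^*` on `Pic⁰` of the modular function field of level `N` hold. -/
theorem heckeInputsAlong (N l : ℕ) [NeZero N] [NeZero l] :
    ModularCurve.HeckeInputsAlong (AlgebraicClosure ℚ) N l := by
  have hFF' := isFunctionField_FF (N * l)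
  have ht := transcendental_jgen N
  have hdF := deg_eq_one_FF N
  have hdF' := deg_eq_one_FF (N * l)
  haveI : HasPrincipalDivisors (AlgebraicClosure ℚ)
      (laurentBaseChange (AlgebraicClosure ℚ) (modularFunctionFieldFull (N * l))) :=
    hasPrincipalDivisors_FF (N * l)
  have hα : HeckeAlphaBarIntegral (AlgebraicClosure ℚ) N l :=
    isIntegral_along_of_isFunctionField hFF' _ ht
  have hβ : HeckeBetaBarIntegral (AlgebraicClosure ℚ) N l :=
    isIntegral_along_of_isFunctionField hFF' _ ht
  have hfinα : FiniteAlong (AlgebraicClosure ℚ) (heckeAlphaBar (AlgebraicClosure ℚ) N l) :=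
    finiteAlong_of_isFunctionField hFF' _ ht
  have hfinβ : FiniteAlong (AlgebraicClosure ℚ) (heckeBetaBar (AlgebraicClosure ℚ) N l) :=
    finiteAlong_of_isFunctionField hFF' _ ht
  exact heckeInputsAlong_intro hα hβ (fundamentalIdentityAlong _ hβ hfinβ hdF hdF') hfinα
    (normFormulaAlong _ hfinα hdF hdF')

end Fermat.Agent.S37.H75
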