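/-
S37 / H75 (helper75): the `exists_over` / `inertia_one` fields of helper36's `EvalHyp` for the
modular degeneracy maps `α = heckeAlphaBar`, `β = heckeBetaBar` (`V_p = β` with `l := p`) at
every level.
-/
import Mathlib
import Fermat.Agent.S37.H75.Fibre
import Fermat.Agent.S37.H75.Modular

set_option autoImplicit false

open AlgebraicCurve ModularCurve

noncomputable section

namespace Fermat.Agent.S37.H75

open Fermat.Agent.S24

variable (N l : ℕ) [NeZero N] [NeZero l]

/-- `β = heckeBetaBar` is finite at every level. -/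
theorem finiteAlong_beta :
    FiniteAlong (AlgebraicClosure ℚ) (heckeBetaBar (AlgebraicClosure ℚ) N l) :=
  finiteAlong_of_isFunctionField (isFunctionField_FF (N * l)) _ (transcendental_jgen N)

/-- `α = heckeAlphaBar` is finite at every level. -/
theorem finiteAlong_alpha :
    FiniteAlong (AlgebraicClosure ℚ) (heckeAlphaBar (AlgebraicClosure ℚ) N l) :=
  finiteAlong_of_isFunctionField (isFunctionField_FF (N * l)) _ (transcendental_jgen N)

/-- Every place of `F_N` extends along `β` (`EvalHyp.exists_over` for `V_p`). -/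
theorem exists_over_beta (hβ : HeckeBetaBarIntegral (AlgebraicClosure ℚ) N l)
    (P : Place (AlgebraicClosure ℚ) (modularFunctionFieldBar N)) :
    ∃ w : Place (AlgebraicClosure ℚ) (modularFunctionFieldBar (N * l)),
      w.restrictAlong (heckeBetaBar (AlgebraicClosure ℚ) N l) hβ = P :=
  exists_restrictAlong_eq _ hβ (finiteAlong_beta N l) P

/-- Every place of `F_N` extends along `α`. -/
theorem exists_over_alpha (hα : HeckeAlphaBarIntegral (AlgebraicClosure ℚ) N l)
    (P : Place (AlgebraicClosure ℚ) (modularFunctionFieldBar N)) :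
    ∃ w : Place (AlgebraicClosure ℚ) (modularFunctionFieldBar (N * l)),
      w.restrictAlong (heckeAlphaBar (AlgebraicClosure ℚ) N l) hα = P :=
  exists_restrictAlong_eq _ hα (finiteAlong_alpha N l) P

/-- Inertia degrees along `α` are one (`EvalHyp.inertia_one`). -/
theorem inertiaDegAlong_alpha (hα : HeckeAlphaBarIntegral (AlgebraicClosure ℚ) N l)
    (Q : Place (AlgebraicClosure ℚ) (modularFunctionFieldBar (N * l))) :
    Q.inertiaDegAlong (heckeAlphaBar (AlgebraicClosure ℚ) N l) hα = 1 :=
  inertiaDegAlong_eq_one _ hα (deg_eq_one_FF N) (deg_eq_one_FF (N * l)) Q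

/-- Inertia degrees along `β` are one. -/
theorem inertiaDegAlong_beta (hβ : HeckeBetaBarIntegral (AlgebraicClosure ℚ) N l)
    (Q : Place (AlgebraicClosure ℚ) (modularFunctionFieldBar (N * l))) :
    Q.inertiaDegAlong (heckeBetaBar (AlgebraicClosure ℚ) N l) hβ = 1 :=
  inertiaDegAlong_eq_one _ hβ (deg_eq_one_FF N) (deg_eq_one_FF (N * l)) Q

end Fermat.Agent.S37.H75
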