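/-
S37 / H75 (helper75): the norm VALUE formula in Place language (package P-C wrapper), at an
arbitrary base place `v` of `F`, for a finite extension `F'/F` of function fields over an
algebraically closed constant field `K` of characteristic zero:

  if `g ≡ c_w` at every place `w` of `F'` above `v`, then
  `N_{F'/F}(g) ≡ ∏_{w | v} c_w ^ e(w|v)` at `v`.

Generic core: landed `S37/H64/NormValue.lean` (`norm_mk_eq_prod_factors`); dictionary:
`S37/H75/Dict.lean`.
-/
import Mathlib
import Fermat.Prelude.Def_AlgebraicCurve_Correspondence
import Fermat.Agent.S37.H64.NormValue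
import Fermat.Agent.S37.H75.Dict

set_option autoImplicit false
set_option linter.unusedSectionVars false
set_option linter.style.haveILetI false
set_option linter.deprecated false

open AlgebraicCurve IsDedekindDomain

noncomputable section

namespace Fermat.Agent.S37.H75

open Fermat.Agent.S24.H52 Fermat.Agent.S18.H42 Fermat.Agent.S18.H53

section NormValue

variable {K : Type*} [Field K] [CharZero K] [IsAlgClosed K] {F : Type*} [Field F] [Algebra K F]
variable {F' : Type*} [Field F'] [Algebra K F'] [Algebra F F'] [IsScalarTower K F F']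
  [FiniteDimensional F F']

attribute [local instance] relBAlgebra relB_isScalarTower relB_isDedekindDomain
  relB_isFractionRing relB_finite relB_isTorsionFree relB_free

/-- **Norm value formula** (`[Algebra F F']` form). -/
theorem norm_value [HasPrincipalDivisors K F'] (v : Place K F) (hv : v.deg = 1) (g : F')
    (c : Place K F' → K)
    (hc : ∀ w ∈ v.fiber F', g - algebraMap K F' (c w) ∈ w.toValuationSubring.nonunits) :
    Algebra.norm F g - algebraMap K F (∏ w ∈ v.fiber F', c w ^ w.ramificationIndex F)
      ∈ v.toValuationSubring.nonunits := by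
  classical
  -- `g` lies in the integral closure of `O_v`
  have hg : ∀ w : Place K F', w.restrict F = v → g ∈ w.toValuationSubring := by
    intro w hw
    have h1 := w.toValuationSubring.nonunits_subset (hc w (Place.mem_fiber.mpr hw))
    have h2 : algebraMap K F' (c w) ∈ w.toValuationSubring := w.algebraMap_mem' _
    have h3 := w.toValuationSubring.add_mem _ _ h1 h2
    rwa [sub_add_cancel] at h3
  obtain ⟨b, rfl⟩ := exists_relB_eq_of_forall_mem v g hg
  -- the values, indexed by ideals of `B`
  let a : Ideal (relB v F') → ↥v.toValuationSubring := fun P =>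
    if h : P.IsPrime ∧ P ≠ ⊥ then
      algebraMap K ↥v.toValuationSubring (c (placeOfPrime (K := K) (F := F') ⟨P, h.1, h.2⟩))
    else 0
  have ha_eq : ∀ P : HeightOneSpectrum (relB v F'),
      a P.asIdeal = algebraMap K ↥v.toValuationSubring (c (placeOfPrime (K := K) (F := F') P)) := by
    intro P
    have h : P.asIdeal.IsPrime ∧ P.asIdeal ≠ ⊥ := ⟨P.isPrime, P.ne_bot⟩
    simp only [a, dif_pos h]
  have hcoe : ∀ x : K, algebraMap (relB v F') F'
      (algebraMap ↥v.toValuationSubring (relB v F') (algebraMap K ↥v.toValuationSubring x))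
      = algebraMap K F' x := by
    intro x
    rw [IsScalarTower.algebraMap_apply K (relB v F') F']
    rfl
  have ha : ∀ P ∈ (UniqueFactorizationMonoid.factors
      ((IsLocalRing.maximalIdeal ↥v.toValuationSubring).map
        (algebraMap ↥v.toValuationSubring (relB v F')))).toFinset,
      b - algebraMap ↥v.toValuationSubring (relB v F') (a P) ∈ P := by
    intro P hP
    obtain ⟨hP1, hP2⟩ := (mem_factors_iff v P).mp hP
    have key := (mem_asIdeal_iff_nonunits v ⟨P, hP1, hP2⟩
      (b - algebraMap ↥v.toValuationSubring (relB v F') (a P))).mpr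
    apply key
    rw [map_sub, ha_eq ⟨P, hP1, hP2⟩, hcoe]
    exact hc _ (Place.mem_fiber.mpr (restrict_placeOfPrime v ⟨P, hP1, hP2⟩))
  have core := Fermat.Agent.S37.H64.norm_mk_eq_prod_factors (map_maximalIdeal_ne_bot (F' := F') v)
    b a ha
  -- reindex the product by the height-one primes
  have himg : (UniqueFactorizationMonoid.factors
      ((IsLocalRing.maximalIdeal ↥v.toValuationSubring).map
        (algebraMap ↥v.toValuationSubring (relB v F')))).toFinset
      = (relPrimes v F').image HeightOneSpectrum.asIdeal := by
    ext P
    rw [mem_factors_iff, Finset.mem_image]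
    constructor
    · rintro ⟨h1, h2⟩
      exact ⟨⟨P, h1, h2⟩, mem_relPrimes v _, rfl⟩
    · rintro ⟨Q, -, rfl⟩
      exact ⟨Q.isPrime, Q.ne_bot⟩
  rw [himg, Finset.prod_image (fun P _ Q _ h => HeightOneSpectrum.ext h)] at core
  have hprod : ∏ P ∈ relPrimes v F',
      Ideal.Quotient.mk (IsLocalRing.maximalIdeal ↥v.toValuationSubring) (a P.asIdeal) ^
        (Ideal.ramificationIdx' (IsLocalRing.maximalIdeal ↥v.toValuationSubring) P.asIdeal *
          Ideal.inertiaDeg' (IsLocalRing.maximalIdeal ↥v.toValuationSubring) P.asIdeal)
      = Ideal.Quotient.mk (IsLocalRing.maximalIdeal ↥v.toValuationSubring)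
          (algebraMap K ↥v.toValuationSubring
            (∏ w ∈ v.fiber F', c w ^ w.ramificationIndex F)) := by
    rw [prod_fiber_eq v (fun w => c w ^ w.ramificationIndex F), map_prod, map_prod]
    refine Finset.prod_congr rfl fun P _ => ?_
    rw [ramificationIdx'_relB v P, inertiaDeg'_relB v hv P, mul_one, ha_eq P, map_pow, map_pow]
  rw [hprod, ← sub_eq_zero, ← map_sub, Ideal.Quotient.eq_zero_iff_mem] at core
  have hfin := (ValuationSubring.coe_mem_nonunits_iff (A := v.toValuationSubring)).mpr core
  rw [norm_relB]
  exact hfin

end NormValue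

section Along

variable {K : Type*} [Field K] [CharZero K] [IsAlgClosed K] {F F' : Type*} [Field F] [Field F']
  [Algebra K F] [Algebra K F'] [HasPrincipalDivisors K F']

/-- **Norm value formula along a finite `K`-embedding** `φ : F → F'` (the body of helper36's
`NormValueAlong φ hφ`, unfolded). -/
theorem norm_value_along (φ : F →ₐ[K] F') (hφ : φ.toRingHom.IsIntegral) (hfin : FiniteAlong K φ)
    (hF : ∀ v : Place K F, v.deg = 1) (v : Place K F) (g : F') (c : Place K F' → K)
    (hc : ∀ w ∈ Place.fiberAlong φ hφ v,
      g - algebraMap K F' (c w) ∈ w.toValuationSubring.nonunits) :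
    (letI := algebraAlong φ; Algebra.norm F g) -
        algebraMap K F (∏ w ∈ Place.fiberAlong φ hφ v, c w ^ w.ramificationIndexAlong φ)
      ∈ v.toValuationSubring.nonunits := by
  letI := algebraAlong φ
  haveI := isScalarTower_along φ
  haveI := isIntegral_along φ hφ
  haveI : Module.Finite F F' := hfin
  exact norm_value v (hF v) g c hc

end Along

end Fermat.Agent.S37.H75
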