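/-
S37 / H75 (helper75): the norm value formula in the exact shape of helper36's `EvalHyp`
fields `normV`, `normβ` (`Fermat.Agent.S37.H36.NormValueAlong`), generic and for the modular
degeneracy maps at every level.
-/
import Mathlib
import Fermat.Agent.S37.H36.Eval
import Fermat.Agent.S37.H75.NormValue
import Fermat.Agent.S37.H75.Modular

set_option autoImplicit false
set_option linter.style.haveILetI false

open AlgebraicCurve ModularCurve

noncomputable section

namespace Fermat.Agent.S37.H75

section Generic

variable {K : Type*} [Field K] [CharZero K] [IsAlgClosed K] {F F' : Type*} [Field F] [Field F']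
  [Algebra K F] [Algebra K F'] [HasPrincipalDivisors K F']

/-- helper36's `NormValueAlong φ hφ` for every finite `K`-embedding of function fields (places of
the base of degree one). -/
theorem normValueAlong (φ : F →ₐ[K] F') (hφ : φ.toRingHom.IsIntegral) (hfin : FiniteAlong K φ)
    (hF : ∀ v : Place K F, v.deg = 1) : Fermat.Agent.S37.H36.NormValueAlong φ hφ :=
  fun v g c hc => norm_value_along φ hφ hfin hF v g c hc

end Generic

open Fermat.Agent.S24

/-- `NormValueAlong` for `β = heckeBetaBar` (`q ↦ q^l`) at every level; with `l := p` this is the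
map `V_p`. -/
theorem normValueAlong_beta (N l : ℕ) [NeZero N] [NeZero l]
    [HasPrincipalDivisors (AlgebraicClosure ℚ)
      (laurentBaseChange (AlgebraicClosure ℚ) (modularFunctionFieldFull (N * l)))]
    (hβ : HeckeBetaBarIntegral (AlgebraicClosure ℚ) N l) :
    Fermat.Agent.S37.H36.NormValueAlong (heckeBetaBar (AlgebraicClosure ℚ) N l) hβ :=
  normValueAlong _ hβ
    (finiteAlong_of_isFunctionField (isFunctionField_FF (N * l)) _ (transcendental_jgen N))
    (deg_eq_one_FF N)

/-- `NormValueAlong` for `α = heckeAlphaBar` (the inclusion) at every level. -/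
theorem normValueAlong_alpha (N l : ℕ) [NeZero N] [NeZero l]
    [HasPrincipalDivisors (AlgebraicClosure ℚ)
      (laurentBaseChange (AlgebraicClosure ℚ) (modularFunctionFieldFull (N * l)))]
    (hα : HeckeAlphaBarIntegral (AlgebraicClosure ℚ) N l) :
    Fermat.Agent.S37.H36.NormValueAlong (heckeAlphaBar (AlgebraicClosure ℚ) N l) hα :=
  normValueAlong _ hα
    (finiteAlong_of_isFunctionField (isFunctionField_FF (N * l)) _ (transcendental_jgen N))
    (deg_eq_one_FF N)

end Fermat.Agent.S37.H75
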